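import Fermat.Agent.S30.BK8261.Theta
import Fermat.Agent.S30.GeoDefs
import Fermat.Agent.S30.Betti.Rank
import Fermat.Agent.S30.Supp

/-!
# GALREP / BK assembly (helper8261): `Nonempty (BettiKummer N p)` from finite-level Kummer data

`BettiKummer N p` is the frozen structure of `Fermat/Agent/S30/GeoDefs.lean` (BOARD of helper100).
We build it with `H = parabolicHoms ℤ (Γ₀(N)) ℤ` (helper2381's Betti lattice), Hecke operators
`betti (T_ℓ)` (coset formula `Betti.heckeHom`), `support` from helper2381 `betti_injective` +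
helper1614 `supp_exists_eigenvector`, and the maps `θ k` of `Theta.lean` from

* (K) `κ k : J₀(N)[p^k] → Hom(Γ₀(N), ℤ/p^k)`: additive, injective, parabolic, compatible in `k`,
  Hecke-equivariant (the export of the Kummer spine, K1–K7);
* (C) the count `p ^ (2 g k) ≤ #J₀(N)[p^k]` with `dim S₂(Γ₀(N)) ≤ g` (S27 + GEN).
-/

set_option autoImplicit false

open CongruenceSubgroup ModularCurve ModularCurve.Period
open scoped MatrixGroups TensorProduct

namespace Fermat.Agent.S30.BK8261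

variable (N : ℕ) [NeZero N]

/-- The elements of `Γ₀(N)` of trace `±2`. -/
def parSet : Set (Gamma0 N) :=
  {γ | ((γ : SL(2, ℤ)) : Matrix (Fin 2) (Fin 2) ℤ).trace ^ 2 = 4}

omit [NeZero N] in
theorem mem_homP_parSet_iff {B : Type*} [AddCommGroup B] (ψ : Additive (Gamma0 N) →+ B) :
    ψ ∈ homP (parSet N) B ↔ IsParabolicHom (Gamma0 N) ψ := Iff.rfl

/-- The Prelude lattice `parabolicHoms ℤ (Γ₀(N)) ℤ` is `homP (parSet N) ℤ`. -/
def parEquiv : parabolicHoms ℤ (Gamma0 N) ℤ ≃+ homP (parSet N) ℤ where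
  toFun h := ⟨h.1, h.2⟩
  invFun h := ⟨h.1, h.2⟩
  left_inv _ := rfl
  right_inv _ := rfl
  map_add' _ _ := rfl

omit [NeZero N] in
theorem coe_parEquiv (h : parabolicHoms ℤ (Gamma0 N) ℤ) :
    (parEquiv N h : Additive (Gamma0 N) →+ ℤ) = (h : Additive (Gamma0 N) →+ ℤ) := rfl

omit [NeZero N] in
theorem coe_parEquiv_symm (h : homP (parSet N) ℤ) :
    ((parEquiv N).symm h : Additive (Gamma0 N) →+ ℤ) = (h : Additive (Gamma0 N) →+ ℤ) := rfl

instance instFiniteHomP : Module.Finite ℤ (homP (parSet N) ℤ) :=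
  Module.Finite.equiv (parEquiv N).toIntLinearEquiv

theorem finrank_homP :
    Module.finrank ℤ (homP (parSet N) ℤ) = 2 * Module.finrank ℂ (CuspForm (Gamma0 N) 2) := by
  rw [← Betti.finrank_parabolicHoms N]
  exact ((parEquiv N).toIntLinearEquiv.finrank_eq).symm

/-- The Hecke operator `T_ℓ` on the Betti lattice (`0` for `ℓ ∣ N`). -/
noncomputable def heckeEnd (ℓ : Nat.Primes) : Module.End ℤ (parabolicHoms ℤ (Gamma0 N) ℤ) :=
  if hℓN : ¬ (ℓ : ℕ) ∣ N then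
    Betti.betti N (∅ : Set ℕ) (CuspForm.heckeAlgebra.T ℓ.2 hℓN (Set.notMem_empty _))
  else 0

theorem heckeEnd_apply {ℓ : ℕ} [Fact ℓ.Prime] (hℓ : ℓ.Prime) (hℓN : ¬ ℓ ∣ N)
    (h : parabolicHoms ℤ (Gamma0 N) ℤ) :
    ((heckeEnd N ⟨ℓ, hℓ⟩ h : parabolicHoms ℤ (Gamma0 N) ℤ) : Additive (Gamma0 N) →+ ℤ) =
      Betti.heckeHom N hℓN ℤ (h : Additive (Gamma0 N) →+ ℤ) := by
  have h1 : heckeEnd N ⟨ℓ, hℓ⟩ =
      Betti.betti N (∅ : Set ℕ) (CuspForm.heckeAlgebra.T hℓ hℓN (Set.notMem_empty _)) :=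
    dif_pos hℓN
  rw [h1]
  exact Betti.betti_T N ∅ hℓN (Set.notMem_empty _) h

/-- The support property of the Betti lattice. -/
theorem support_heckeEnd (S : Finset ℕ) (R : Type) [Field R]
    (χ : CuspForm.heckeAlgebra N 2 (↑S : Set ℕ) →+* R) :
    ∃ v : R ⊗[ℤ] (parabolicHoms ℤ (Gamma0 N) ℤ), v ≠ 0 ∧
      ∀ (ℓ : ℕ) (hℓ : ℓ.Prime) (hℓN : ¬ ℓ ∣ N) (hℓS : ℓ ∉ (↑S : Set ℕ)),
        (heckeEnd N ⟨ℓ, hℓ⟩).baseChange R v = χ (CuspForm.heckeAlgebra.T hℓ hℓN hℓS) • v := by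
  obtain ⟨v, hv, hev⟩ := supp_exists_eigenvector (Betti.betti N (↑S : Set ℕ))
    (Betti.betti_injective N _) χ
  refine ⟨v, hv, fun ℓ hℓ hℓN hℓS => ?_⟩
  have h1 : heckeEnd N ⟨ℓ, hℓ⟩ =
      Betti.betti N (↑S : Set ℕ) (CuspForm.heckeAlgebra.T hℓ hℓN hℓS) := by
    have : Fact ℓ.Prime := ⟨hℓ⟩
    refine LinearMap.ext fun h => Subtype.ext ?_
    rw [heckeEnd_apply N hℓ hℓN h]
    exact (Betti.betti_T N _ hℓN hℓS h).symm
  rw [h1]
  exact hev _

/-- **BK assembly, general form.**  `tk` is any family of operators on `Hom(Γ₀(N), ℤ/p^k)` which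
reduces the coset-formula Hecke operator on integral parabolic homomorphisms and which `κ`
intertwines with the Prelude Hecke operator on `J₀(N)`. -/
theorem nonempty_bettiKummer_of_kummer' (p : ℕ) (hp : p.Prime)
    (κ : (k : ℕ) → JZero N → (Additive (Gamma0 N) →+ ZMod (p ^ k)))
    (hκ_add : ∀ k x y, p ^ k • x = 0 → p ^ k • y = 0 → κ k (x + y) = κ k x + κ k y)
    (hκ_inj : ∀ k x, p ^ k • x = 0 → κ k x = 0 → x = 0)
    (hκ_par : ∀ k x, p ^ k • x = 0 → IsParabolicHom (Gamma0 N) (κ k x))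
    (hκ_compat : ∀ k x, p ^ (k + 1) • x = 0 → ∀ γ : Additive (Gamma0 N),
      κ k (p • x) γ = ((κ (k + 1) x γ : ZMod (p ^ (k + 1))).cast : ZMod (p ^ k)))
    (tk : (ℓ : ℕ) → (k : ℕ) →
      (Additive (Gamma0 N) →+ ZMod (p ^ k)) →+ (Additive (Gamma0 N) →+ ZMod (p ^ k)))
    (htk : ∀ (ℓ : ℕ) [Fact ℓ.Prime] (hℓN : ¬ ℓ ∣ N), ¬ ℓ ∣ p →
      ∀ (k : ℕ) (h : Additive (Gamma0 N) →+ ℤ), IsParabolicHom (Gamma0 N) h →
        tk ℓ k ((Int.castAddHom (ZMod (p ^ k))).comp h) =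
          (Int.castAddHom (ZMod (p ^ k))).comp (Betti.heckeHom N hℓN ℤ h))
    (hκ_hecke : ∀ (ℓ : ℕ) (hℓ : ℓ.Prime), ¬ ℓ ∣ N → ¬ ℓ ∣ p → ∀ k x, p ^ k • x = 0 →
      κ k (heckeOperatorBar N ⟨ℓ, hℓ⟩ x) = tk ℓ k (κ k x))
    (g : ℕ) (hg : Module.finrank ℂ (CuspForm (Gamma0 N) 2) ≤ g)
    (hcard : ∀ k, p ^ (2 * g * k) ≤ Nat.card {x : JZero N // p ^ k • x = 0}) :
    Nonempty (BettiKummer N p) := by
  have : Fact p.Prime := ⟨hp⟩
  -- `κ` as abstract Kummer data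
  have hκ0 : ∀ k, κ k 0 = 0 := by
    intro k
    have h := hκ_add k 0 0 (smul_zero _) (smul_zero _)
    rw [add_zero] at h
    exact left_eq_add.mp h
  have hκneg : ∀ k y, p ^ k • y = 0 → κ k (-y) = -κ k y := by
    intro k y hy
    have h := hκ_add k y (-y) hy (by rw [neg_nsmul, hy, neg_zero])
    rw [add_neg_cancel, hκ0] at h
    exact eq_neg_of_add_eq_zero_right h.symm
  have hκ : KummerData (parSet N) p κ :=
    { add := hκ_add
      inj := by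
        intro k x y hx hy hxy
        have hxy' : p ^ k • (x + -y) = 0 := by rw [nsmul_add, neg_nsmul, hx, hy, neg_zero, add_zero]
        have h1 : κ k (x + -y) = 0 := by
          rw [hκ_add k x (-y) hx (by rw [neg_nsmul, hy, neg_zero]), hκneg k y hy, hxy,
            add_neg_cancel]
        have h2 := hκ_inj k _ hxy' h1
        exact add_neg_eq_zero.mp h2
      par := hκ_par
      compat := by
        intro k x hx γ
        rw [hκ_compat k x hx γ, ZMod.castHom_apply] }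
  have hr₀ : Module.finrank ℤ (homP (parSet N) ℤ) ≤ 2 * g := by
    rw [finrank_homP]
    exact Nat.mul_le_mul_left 2 hg
  obtain ⟨m, θ, hθ⟩ := exists_theta hκ (2 * g) hr₀ hcard
  refine ⟨{
    H := parabolicHoms ℤ (Gamma0 N) ℤ
    hecke := heckeEnd N
    θ := fun k => (θ k).comp (parEquiv N).toAddMonoidHom
    θ_compat := fun k x => theta_compat hκ hθ k (parEquiv N x)
    θ_zero := fun x => theta_zero hθ (parEquiv N x)
    θ_ker := ⟨m, fun k x hx => ?_⟩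
    θ_hecke := fun ℓ hℓNp k x => ?_
    support := fun S _ R _ _ χ => support_heckeEnd N S R χ }⟩
  · obtain ⟨y, hy⟩ := theta_ker hκ hθ k (parEquiv N x) hx
    refine ⟨(parEquiv N).symm y, ?_⟩
    have h1 : x = (parEquiv N).symm ((p ^ k : ℤ) • y) := by
      rw [← hy, AddEquiv.symm_apply_apply]
    rw [h1, map_zsmul]
  · have hℓ : (ℓ : ℕ).Prime := ℓ.2
    have : Fact (ℓ : ℕ).Prime := ⟨hℓ⟩
    have hℓN : ¬ (ℓ : ℕ) ∣ N := fun h => hℓNp (Dvd.dvd.mul_right h p)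
    have hℓp : ¬ (ℓ : ℕ) ∣ p := fun h => hℓNp (Dvd.dvd.mul_left h N)
    let tH : homP (parSet N) ℤ →+ homP (parSet N) ℤ :=
      ((parEquiv N).toAddMonoidHom.comp (heckeEnd N ℓ).toAddMonoidHom).comp
        (parEquiv N).symm.toAddMonoidHom
    have hnat : ∀ (k : ℕ) (h : homP (parSet N) ℤ),
        tk ℓ k (redHom (p ^ k) (h : Additive (Gamma0 N) →+ ℤ)) =
          redHom (p ^ k) (tH h : Additive (Gamma0 N) →+ ℤ) := by
      intro k h
      have e1 : (tH h : Additive (Gamma0 N) →+ ℤ) =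
          Betti.heckeHom N hℓN ℤ (h : Additive (Gamma0 N) →+ ℤ) :=
        heckeEnd_apply N hℓ hℓN ((parEquiv N).symm h)
      rw [e1]
      exact htk ℓ hℓN hℓp k _ h.2
    have key := theta_equivariant hκ hθ (heckeOperatorBar N ℓ).toAddMonoidHom tH (tk ℓ) hnat
      (fun k x hx => hκ_hecke ℓ hℓ hℓN hℓp k x hx) k (parEquiv N x)
    have e2 : tH (parEquiv N x) = parEquiv N (heckeEnd N ℓ x) := by
      show parEquiv N (heckeEnd N ℓ ((parEquiv N).symm (parEquiv N x))) = _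
      rw [AddEquiv.symm_apply_apply]
    rw [e2] at key
    exact key

/-- **BK assembly** with helper2381's coset-formula Hecke operators `Betti.heckeHom` on
`Hom(Γ₀(N), ℤ/p^k)`. -/
theorem nonempty_bettiKummer_of_kummer (p : ℕ) (hp : p.Prime)
    (κ : (k : ℕ) → JZero N → (Additive (Gamma0 N) →+ ZMod (p ^ k)))
    (hκ_add : ∀ k x y, p ^ k • x = 0 → p ^ k • y = 0 → κ k (x + y) = κ k x + κ k y)
    (hκ_inj : ∀ k x, p ^ k • x = 0 → κ k x = 0 → x = 0)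
    (hκ_par : ∀ k x, p ^ k • x = 0 → IsParabolicHom (Gamma0 N) (κ k x))
    (hκ_compat : ∀ k x, p ^ (k + 1) • x = 0 → ∀ γ : Additive (Gamma0 N),
      κ k (p • x) γ = ((κ (k + 1) x γ : ZMod (p ^ (k + 1))).cast : ZMod (p ^ k)))
    (hκ_hecke : ∀ (ℓ : ℕ) [Fact ℓ.Prime] (hℓ : ℓ.Prime) (hℓN : ¬ ℓ ∣ N), ¬ ℓ ∣ p →
      ∀ k x, p ^ k • x = 0 →
        κ k (heckeOperatorBar N ⟨ℓ, hℓ⟩ x) = Betti.heckeHom N hℓN (ZMod (p ^ k)) (κ k x))
    (g : ℕ) (hg : Module.finrank ℂ (CuspForm (Gamma0 N) 2) ≤ g)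
    (hcard : ∀ k, p ^ (2 * g * k) ≤ Nat.card {x : JZero N // p ^ k • x = 0}) :
    Nonempty (BettiKummer N p) := by
  classical
  let tk : (ℓ : ℕ) → (k : ℕ) →
      (Additive (Gamma0 N) →+ ZMod (p ^ k)) →+ (Additive (Gamma0 N) →+ ZMod (p ^ k)) :=
    fun ℓ k => if h : ℓ.Prime ∧ ¬ ℓ ∣ N then
      (haveI : Fact ℓ.Prime := ⟨h.1⟩; Betti.heckeHom N h.2 (ZMod (p ^ k))) else 0
  refine nonempty_bettiKummer_of_kummer' N p hp κ hκ_add hκ_inj hκ_par hκ_compat tk ?_ ?_ g hg hcard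
  · intro ℓ hFact hℓN _ k h _
    have hℓ : ℓ.Prime := hFact.out
    have e : tk ℓ k = Betti.heckeHom N hℓN (ZMod (p ^ k)) := dif_pos ⟨hℓ, hℓN⟩
    rw [e]
    exact Betti.heckeHom_comp N hℓN _ h
  · intro ℓ hℓ hℓN hℓp k x hx
    have : Fact ℓ.Prime := ⟨hℓ⟩
    have e : tk ℓ k = Betti.heckeHom N hℓN (ZMod (p ^ k)) := dif_pos ⟨hℓ, hℓN⟩
    rw [e]
    exact hκ_hecke ℓ hℓ hℓN hℓp k x hx

omit [NeZero N] in
/-- The count hypothesis in the shape of the frozen S27 (`Pic0.torsion`). -/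
theorem card_torsion_eq (p k : ℕ) :
    Nat.card {x : JZero N // p ^ k • x = 0} =
      Nat.card (AlgebraicCurve.Pic0.torsion (AlgebraicClosure ℚ) (modularFunctionFieldBar N)
        (p ^ k)) := by
  refine Nat.card_congr (Equiv.subtypeEquivRight fun x => ?_)
  rw [AlgebraicCurve.Pic0.mem_torsion, natCast_zsmul]

/-- **BK assembly**, count in the S27 shape: `#J₀(N)[p^k] = p ^ (2 g k)` for a `g` with
`dim S₂(Γ₀(N)) ≤ g` (in practice `g = genusFF ℚ̄ (ℚ̄(X₀(N)))`: S27 + GEN). -/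
theorem nonempty_bettiKummer_of_kummer_of_card (p : ℕ) (hp : p.Prime)
    (κ : (k : ℕ) → JZero N → (Additive (Gamma0 N) →+ ZMod (p ^ k)))
    (hκ_add : ∀ k x y, p ^ k • x = 0 → p ^ k • y = 0 → κ k (x + y) = κ k x + κ k y)
    (hκ_inj : ∀ k x, p ^ k • x = 0 → κ k x = 0 → x = 0)
    (hκ_par : ∀ k x, p ^ k • x = 0 → IsParabolicHom (Gamma0 N) (κ k x))
    (hκ_compat : ∀ k x, p ^ (k + 1) • x = 0 → ∀ γ : Additive (Gamma0 N),
      κ k (p • x) γ = ((κ (k + 1) x γ : ZMod (p ^ (k + 1))).cast : ZMod (p ^ k)))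
    (hκ_hecke : ∀ (ℓ : ℕ) [Fact ℓ.Prime] (hℓ : ℓ.Prime) (hℓN : ¬ ℓ ∣ N), ¬ ℓ ∣ p →
      ∀ k x, p ^ k • x = 0 →
        κ k (heckeOperatorBar N ⟨ℓ, hℓ⟩ x) = Betti.heckeHom N hℓN (ZMod (p ^ k)) (κ k x))
    (g : ℕ) (hg : Module.finrank ℂ (CuspForm (Gamma0 N) 2) ≤ g)
    (hS27 : ∀ k, Nat.card (AlgebraicCurve.Pic0.torsion (AlgebraicClosure ℚ)
      (modularFunctionFieldBar N) (p ^ k)) = p ^ (2 * g * k)) :
    Nonempty (BettiKummer N p) :=
  nonempty_bettiKummer_of_kummer N p hp κ hκ_add hκ_inj hκ_par hκ_compat hκ_hecke g hg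
    (fun k => by rw [card_torsion_eq, hS27])

/-- **FIN from the Kummer map**: injectivity of `κ 1` alone makes `J₀(N)[p]` finite. -/
theorem torsionFinite_of_kummer (p : ℕ) (hp : p.Prime)
    (κ : JZero N → (Additive (Gamma0 N) →+ ZMod p))
    (hκ_add : ∀ x y, p • x = 0 → p • y = 0 → κ (x + y) = κ x + κ y)
    (hκ_inj : ∀ x, p • x = 0 → κ x = 0 → x = 0) :
    TorsionFinite N p := by
  have hκ0 : κ 0 = 0 := by
    have h := hκ_add 0 0 (smul_zero _) (smul_zero _)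
    rw [add_zero] at h
    exact left_eq_add.mp h
  have hκneg : ∀ y, p • y = 0 → κ (-y) = -κ y := by
    intro y hy
    have h := hκ_add y (-y) hy (by rw [neg_nsmul, hy, neg_zero])
    rw [add_neg_cancel, hκ0] at h
    exact eq_neg_of_add_eq_zero_right h.symm
  obtain ⟨C, r, b, hC, hb, hcard⟩ := exists_card_homP_le (∅ : Set (Gamma0 N))
  have hfin : Finite (homP (∅ : Set (Gamma0 N)) (ZMod p)) := (hcard p hp.pos).1
  let f : {x : JZero N | p • x = 0} → homP (∅ : Set (Gamma0 N)) (ZMod p) :=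
    fun x => ⟨κ x.1, fun _ hg => absurd hg (Set.notMem_empty _)⟩
  have hf : Function.Injective f := by
    intro x y hxy
    have hx : p • (x : JZero N) = 0 := x.2
    have hy : p • (y : JZero N) = 0 := y.2
    have h0 : κ x.1 = κ y.1 := congrArg Subtype.val hxy
    have hxy' : p • ((x : JZero N) + -(y : JZero N)) = 0 := by
      rw [nsmul_add, neg_nsmul, hx, hy, neg_zero, add_zero]
    have h1 : κ ((x : JZero N) + -(y : JZero N)) = 0 := by
      rw [hκ_add _ _ hx (by rw [neg_nsmul, hy, neg_zero]), hκneg _ hy, h0, add_neg_cancel]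
    exact Subtype.ext (add_neg_eq_zero.mp (hκ_inj _ hxy' h1))
  have : Finite {x : JZero N | p • x = 0} := Finite.of_injective f hf
  exact Set.toFinite _

end Fermat.Agent.S30.BK8261
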