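import Mathlib

/-!
# GALREP / BK assembly (helper8261): counting homomorphisms into `ZMod n`

For a finitely generated abelian group `M` there are `C > 0`, `r` and `r` linearly independent
integral homomorphisms `M →+ ℤ` such that `#Hom(M, ℤ/n) ≤ C * n ^ r` for every `n > 0`.
-/

set_option autoImplicit false

namespace Fermat.Agent.S30.BK8261

/-- The `e`-torsion of `ZMod n` has at most `e` elements. -/
theorem card_zmod_torsion_le (n e : ℕ) [NeZero n] (he : 0 < e) :
    Nat.card {x : ZMod n // e • x = 0} ≤ e := by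
  have hn : 0 < n := Nat.pos_of_ne_zero (NeZero.ne n)
  have hdvd : ∀ x : {x : ZMod n // e • x = 0}, n ∣ e * x.1.val := by
    intro x
    have h := x.2
    rw [← ZMod.natCast_eq_zero_iff]
    rw [Nat.cast_mul, ZMod.natCast_zmod_val, ← nsmul_eq_mul]
    exact h
  let f : {x : ZMod n // e • x = 0} → Fin e := fun x =>
    ⟨e * x.1.val / n, by
      rw [Nat.div_lt_iff_lt_mul hn]
      exact Nat.mul_lt_mul_of_pos_left (ZMod.val_lt x.1) he⟩
  have hf : Function.Injective f := by
    intro x y hxy
    have h1 : e * x.1.val / n = e * y.1.val / n := congrArg Fin.val hxy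
    have h2 : e * x.1.val = e * y.1.val := by
      rw [← Nat.mul_div_cancel' (hdvd x), ← Nat.mul_div_cancel' (hdvd y), h1]
    have h3 : x.1.val = y.1.val := Nat.eq_of_mul_eq_mul_left he h2
    exact Subtype.ext (ZMod.val_injective n h3)
  calc Nat.card {x : ZMod n // e • x = 0} ≤ Nat.card (Fin e) := Nat.card_le_card_of_injective f hf
    _ = e := Nat.card_fin e

/-- A finite abelian group of order `e` has at most `e ^ e` homomorphisms into `ZMod n`,
uniformly in `n`. -/
theorem card_hom_finite_le (T : Type*) [AddCommGroup T] [Finite T] (n : ℕ) [NeZero n] :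
    Nat.card (T →+ ZMod n) ≤ Nat.card T ^ Nat.card T := by
  have he : 0 < Nat.card T := Nat.card_pos
  let f : (T →+ ZMod n) → (T → {x : ZMod n // Nat.card T • x = 0}) := fun φ t =>
    ⟨φ t, by rw [← map_nsmul, card_nsmul_eq_zero', map_zero]⟩
  have hf : Function.Injective f := by
    intro φ ψ h
    ext t
    exact congrArg Subtype.val (congrFun h t)
  have hfin : Finite {x : ZMod n // Nat.card T • x = 0} := inferInstance
  calc Nat.card (T →+ ZMod n) ≤ Nat.card (T → {x : ZMod n // Nat.card T • x = 0}) :=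
        Nat.card_le_card_of_injective f hf
    _ = Nat.card {x : ZMod n // Nat.card T • x = 0} ^ Nat.card T := Nat.card_fun
    _ ≤ Nat.card T ^ Nat.card T :=
        Nat.pow_le_pow_left (card_zmod_torsion_le n (Nat.card T) he) _

/-- Counting homomorphisms from a finitely generated abelian group into `ZMod n`. -/
theorem exists_card_hom_le (M : Type*) [AddCommGroup M] [Module.Finite ℤ M] :
    ∃ (C r : ℕ) (b : (Fin r → ℤ) →ₗ[ℤ] (M →+ ℤ)), 0 < C ∧ Function.Injective b ∧
      ∀ n : ℕ, 0 < n → Finite (M →+ ZMod n) ∧ Nat.card (M →+ ZMod n) ≤ C * n ^ r := by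
  classical
  let T : Submodule ℤ M := Submodule.torsion ℤ M
  have hfree : Module.Free ℤ (M ⧸ T) := Module.free_of_finite_type_torsion_free'
  have hTfin : Finite T := Module.finite_of_fg_torsion T Submodule.torsion_isTorsion
  let r : ℕ := Module.finrank ℤ (M ⧸ T)
  let bF : Module.Basis (Fin r) ℤ (M ⧸ T) := Module.finBasis ℤ (M ⧸ T)
  obtain ⟨s, hs⟩ := Module.projective_lifting_property T.mkQ LinearMap.id T.mkQ_surjective
  have hs' : ∀ y : M ⧸ T, T.mkQ (s y) = y := fun y => LinearMap.congr_fun hs y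
  -- the injective linear map
  let b : (Fin r → ℤ) →ₗ[ℤ] (M →+ ℤ) :=
    { toFun := fun c => ((bF.constr ℤ c).comp T.mkQ).toAddMonoidHom
      map_add' := by
        intro c d
        ext x
        show (bF.constr ℤ (c + d)) (T.mkQ x) = (bF.constr ℤ c) (T.mkQ x) + (bF.constr ℤ d) (T.mkQ x)
        rw [map_add]
        rfl
      map_smul' := by
        intro z c
        ext x
        show (bF.constr ℤ (z • c)) (T.mkQ x) = z • (bF.constr ℤ c) (T.mkQ x)
        rw [map_smul]
        rfl }
  have hb : Function.Injective b := by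
    intro c d hcd
    have h1 : ∀ x : M, bF.constr ℤ c (T.mkQ x) = bF.constr ℤ d (T.mkQ x) := fun x =>
      DFunLike.congr_fun hcd x
    have h2 : bF.constr ℤ c = bF.constr ℤ d := by
      refine LinearMap.ext fun y => ?_
      obtain ⟨x, rfl⟩ := T.mkQ_surjective y
      exact h1 x
    exact (bF.constr ℤ).injective h2
  refine ⟨Nat.card T ^ Nat.card T, r, b, pow_pos Nat.card_pos _, hb, fun n hn => ?_⟩
  have : NeZero n := ⟨hn.ne'⟩
  let Φ : (M →+ ZMod n) → (T →+ ZMod n) × (Fin r → ZMod n) := fun φ =>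
    (φ.comp T.subtype.toAddMonoidHom, fun i => φ (s (bF i)))
  have hΦ : Function.Injective Φ := by
    intro φ ψ h
    have hT : ∀ t : T, φ t = ψ t := fun t =>
      DFunLike.congr_fun (congrArg Prod.fst h) t
    have hB : ∀ i, φ (s (bF i)) = ψ (s (bF i)) := fun i => congrFun (congrArg Prod.snd h) i
    have hs2 : ∀ y : M ⧸ T, φ (s y) = ψ (s y) := by
      have : (φ.toIntLinearMap.comp s) = (ψ.toIntLinearMap.comp s) := by
        apply bF.ext
        intro i
        exact hB i
      intro y
      exact LinearMap.congr_fun this y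
    ext x
    have hx : x - s (T.mkQ x) ∈ T := by
      have h0 : T.mkQ (x - s (T.mkQ x)) = 0 := by rw [map_sub, hs', sub_self]
      exact (Submodule.Quotient.mk_eq_zero T).mp h0
    have h3 := hT ⟨_, hx⟩
    have h4 := hs2 (T.mkQ x)
    have e1 : φ x = φ (x - s (T.mkQ x)) + φ (s (T.mkQ x)) := by
      rw [← map_add, sub_add_cancel]
    have e2 : ψ x = ψ (x - s (T.mkQ x)) + ψ (s (T.mkQ x)) := by
      rw [← map_add, sub_add_cancel]
    rw [e1, e2, h4]
    congr 1
  have : Finite (T →+ ZMod n) := DFunLike.finite _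
  refine ⟨Finite.of_injective Φ hΦ, ?_⟩
  calc Nat.card (M →+ ZMod n) ≤ Nat.card ((T →+ ZMod n) × (Fin r → ZMod n)) :=
        Nat.card_le_card_of_injective Φ hΦ
    _ = Nat.card (T →+ ZMod n) * Nat.card (Fin r → ZMod n) := Nat.card_prod _ _
    _ = Nat.card (T →+ ZMod n) * n ^ r := by
        rw [Nat.card_fun, Nat.card_zmod, Nat.card_fin]
    _ ≤ Nat.card T ^ Nat.card T * n ^ r :=
        Nat.mul_le_mul_right _ (card_hom_finite_le T n)

end Fermat.Agent.S30.BK8261
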