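import Fermat.Agent.S30.BK8261.Count

/-!
# GALREP / BK assembly (helper8261): homomorphisms killing a set of elements

`homP P B` = homomorphisms `Additive G →+ B` vanishing on `P ⊆ G` (for `G = Γ₀(N)` and
`P` = the elements of trace `±2` this is the Prelude `parabolicHoms`).  For a finitely generated
group `G` we bound `#homP P (ZMod n) ≤ C * n ^ r` with `r ≤ rank (homP P ℤ)`.
-/

set_option autoImplicit false

namespace Fermat.Agent.S30.BK8261

section HomP

variable {G : Type*} [Group G] (P : Set G)

/-- Homomorphisms `Additive G →+ B` killing `P`. -/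
def homP (B : Type*) [AddCommGroup B] : AddSubgroup (Additive G →+ B) where
  carrier := {ψ | ∀ g ∈ P, ψ (Additive.ofMul g) = 0}
  zero_mem' := fun _ _ => rfl
  add_mem' := by
    intro a b ha hb g hg
    rw [AddMonoidHom.add_apply, ha g hg, hb g hg, add_zero]
  neg_mem' := by
    intro a ha g hg
    rw [AddMonoidHom.neg_apply, ha g hg, neg_zero]

theorem mem_homP {B : Type*} [AddCommGroup B] {ψ : Additive G →+ B} :
    ψ ∈ homP P B ↔ ∀ g ∈ P, ψ (Additive.ofMul g) = 0 := Iff.rfl

/-- The subgroup of `Additive (Abelianization G)` generated by the images of `P`. -/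
def relUM : AddSubgroup (Additive (Abelianization G)) :=
  AddSubgroup.closure ((fun g : G => Additive.ofMul (Abelianization.of g)) '' P)

/-- The universal abelian group for homomorphisms killing `P`. -/
abbrev UM : Type _ := Additive (Abelianization G) ⧸ relUM P

/-- The canonical map `Additive G →+ UM P`. -/
def toUM : Additive G →+ UM P :=
  (QuotientAddGroup.mk' (relUM P)).comp (MonoidHom.toAdditive Abelianization.of)

theorem toUM_surjective : Function.Surjective (toUM P) := by
  intro y
  obtain ⟨a, rfl⟩ := QuotientAddGroup.mk'_surjective (relUM P) y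
  obtain ⟨g, rfl⟩ := QuotientGroup.mk_surjective (s := commutator G) (Additive.toMul a)
  exact ⟨Additive.ofMul g, rfl⟩

theorem toUM_of_mem {g : G} (hg : g ∈ P) : toUM P (Additive.ofMul g) = 0 := by
  refine (QuotientAddGroup.eq_zero_iff _).mpr ?_
  exact AddSubgroup.subset_closure ⟨g, hg, rfl⟩

/-- Precomposition with `toUM`. -/
def precompUM (B : Type*) [AddCommGroup B] : (UM P →+ B) →+ homP P B where
  toFun φ := ⟨φ.comp (toUM P), fun g hg => by
    rw [AddMonoidHom.comp_apply, toUM_of_mem P hg, map_zero]⟩
  map_zero' := rfl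
  map_add' _ _ := rfl

theorem precompUM_apply {B : Type*} [AddCommGroup B] (φ : UM P →+ B) (x : Additive G) :
    (precompUM P B φ : Additive G →+ B) x = φ (toUM P x) := rfl

theorem precompUM_injective (B : Type*) [AddCommGroup B] :
    Function.Injective (precompUM P B) := by
  intro φ ψ h
  refine AddMonoidHom.ext fun y => ?_
  obtain ⟨x, rfl⟩ := toUM_surjective P y
  have := congrArg (fun f : homP P B => (f : Additive G →+ B) x) h
  exact this

/-- The universal property: every homomorphism killing `P` factors through `UM P`. -/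
theorem exists_lift {B : Type*} [AddCommGroup B] (ψ : Additive G →+ B) (hψ : ψ ∈ homP P B) :
    ∃ φ : UM P →+ B, ∀ x : Additive G, φ (toUM P x) = ψ x := by
  let ψ₁ : Additive (Abelianization G) →+ B :=
    MonoidHom.toAdditiveLeft (Abelianization.lift (AddMonoidHom.toMultiplicativeRight ψ))
  have h₁ : ∀ g : G, ψ₁ (Additive.ofMul (Abelianization.of g)) = ψ (Additive.ofMul g) :=
    fun g => rfl
  have hker : relUM P ≤ ψ₁.ker := by
    refine (AddSubgroup.closure_le _).mpr ?_
    rintro _ ⟨g, hg, rfl⟩
    show ψ₁ (Additive.ofMul (Abelianization.of g)) = 0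
    rw [h₁]
    exact hψ g hg
  refine ⟨QuotientAddGroup.lift (relUM P) ψ₁ hker, fun x => ?_⟩
  exact h₁ (Additive.toMul x)

theorem precompUM_surjective (B : Type*) [AddCommGroup B] :
    Function.Surjective (precompUM P B) := by
  rintro ⟨ψ, hψ⟩
  obtain ⟨φ, hφ⟩ := exists_lift P ψ hψ
  exact ⟨φ, Subtype.ext (AddMonoidHom.ext hφ)⟩

instance instFiniteUM [Group.FG G] : Module.Finite ℤ (UM P) := by
  rw [Module.Finite.iff_addGroup_fg]
  exact AddGroup.fg_of_surjective (f := toUM P) (toUM_surjective P)

/-- **Counting homomorphisms killing `P`.** -/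
theorem exists_card_homP_le [Group.FG G] :
    ∃ (C r : ℕ) (b : (Fin r → ℤ) →ₗ[ℤ] homP P ℤ), 0 < C ∧ Function.Injective b ∧
      ∀ n : ℕ, 0 < n → Finite (homP P (ZMod n)) ∧ Nat.card (homP P (ZMod n)) ≤ C * n ^ r := by
  obtain ⟨C, r, b₀, hC, hb₀, hcard⟩ := exists_card_hom_le (UM P)
  refine ⟨C, r, (precompUM P ℤ).toIntLinearMap.comp b₀, hC, ?_, fun n hn => ?_⟩
  · exact (precompUM_injective P ℤ).comp hb₀
  · obtain ⟨hfin, hle⟩ := hcard n hn
    have hbij : Function.Bijective (precompUM P (ZMod n)) :=
      ⟨precompUM_injective P _, precompUM_surjective P _⟩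
    have hfin' : Finite (homP P (ZMod n)) := Finite.of_surjective _ hbij.2
    refine ⟨hfin', ?_⟩
    rw [← Nat.card_eq_of_bijective _ hbij]
    exact hle

end HomP

end Fermat.Agent.S30.BK8261
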