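import Fermat.Agent.S30.BK8261.HomP

/-!
# GALREP / BK assembly (helper8261): the maps `θ k : H → J[p^k]` from finite-level Kummer data

Abstract setting: `G` a finitely generated group, `P ⊆ G`, `H = homP P ℤ`, `J` an abelian group,
`κ k : J[p^k] → Hom(G, ℤ/p^k)` additive, injective, killing `P`, compatible in `k`, and the count
`p ^ (r₀ k) ≤ #J[p^k]` with `rank H ≤ r₀`.  Then there are `m` and additive maps
`θ k : H → J[p^k]` with `κ k (θ k h) = p^m • (h mod p^k)`; they are compatible, have kernel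
`p^k H` up to the defect `m`, and intertwine any pair of operators that `κ` intertwines.
No `ℤ_p`, no Tate module.
-/

set_option autoImplicit false

namespace Fermat.Agent.S30.BK8261

section Theta

variable {G : Type*} [Group G] (P : Set G) (p : ℕ)
variable {J : Type*} [AddCommGroup J]

/-- Reduction mod `n` of an integral homomorphism. -/
def redHom (n : ℕ) (h : Additive G →+ ℤ) : Additive G →+ ZMod n :=
  (Int.castAddHom (ZMod n)).comp h

theorem redHom_apply (n : ℕ) (h : Additive G →+ ℤ) (x : Additive G) :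
    redHom n h x = ((h x : ℤ) : ZMod n) := rfl

theorem redHom_add (n : ℕ) (h h' : Additive G →+ ℤ) :
    redHom n (h + h') = redHom n h + redHom n h' :=
  AddMonoidHom.comp_add _ _ _

theorem redHom_zero (n : ℕ) : redHom n (0 : Additive G →+ ℤ) = 0 :=
  AddMonoidHom.comp_zero _

theorem redHom_mem {n : ℕ} {h : Additive G →+ ℤ} (hh : h ∈ homP P ℤ) :
    redHom n h ∈ homP P (ZMod n) := by
  intro g hg
  rw [redHom_apply, hh g hg, Int.cast_zero]

/-- Finite-level Kummer data: `κ k` on the `p^k`-torsion of `J` (values outside the torsion are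
irrelevant). -/
structure KummerData (κ : (k : ℕ) → J → (Additive G →+ ZMod (p ^ k))) : Prop where
  add : ∀ k x y, p ^ k • x = 0 → p ^ k • y = 0 → κ k (x + y) = κ k x + κ k y
  inj : ∀ k x y, p ^ k • x = 0 → p ^ k • y = 0 → κ k x = κ k y → x = y
  par : ∀ k x, p ^ k • x = 0 → κ k x ∈ homP P (ZMod (p ^ k))
  compat : ∀ k x, p ^ (k + 1) • x = 0 → ∀ g : Additive G,
    κ k (p • x) g = ZMod.castHom (pow_dvd_pow p (Nat.le_succ k)) (ZMod (p ^ k)) (κ (k + 1) x g)

variable {P p}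

theorem KummerData.map_zero {κ : (k : ℕ) → J → (Additive G →+ ZMod (p ^ k))}
    (hκ : KummerData P p κ) (k : ℕ) : κ k 0 = 0 := by
  have h := hκ.add k 0 0 (smul_zero _) (smul_zero _)
  rw [add_zero] at h
  exact left_eq_add.mp h

/-- The index argument: every homomorphism mod `p^k` killing `P` is, up to `p^C`, a Kummer
class. -/
theorem exists_kummer_class [Group.FG G] [Fact p.Prime] [Module.Finite ℤ (homP P ℤ)]
    {κ : (k : ℕ) → J → (Additive G →+ ZMod (p ^ k))} (hκ : KummerData P p κ)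
    (r₀ : ℕ) (hr₀ : Module.finrank ℤ (homP P ℤ) ≤ r₀)
    (hcount : ∀ k, p ^ (r₀ * k) ≤ Nat.card {x : J // p ^ k • x = 0}) :
    ∃ m : ℕ, ∀ (k : ℕ) (a : Additive G →+ ZMod (p ^ k)), a ∈ homP P (ZMod (p ^ k)) →
      ∃ x : J, p ^ k • x = 0 ∧ κ k x = p ^ m • a := by
  classical
  have hp : p.Prime := Fact.out
  obtain ⟨C, r, b, hC, hb, hcard⟩ := exists_card_homP_le P
  have hr : r ≤ r₀ := by
    have h1 := LinearMap.finrank_le_finrank_of_injective hb
    rw [Module.finrank_fin_fun] at h1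
    exact h1.trans hr₀
  refine ⟨C, fun k a ha => ?_⟩
  have hpk : 0 < p ^ k := pow_pos hp.pos k
  obtain ⟨hfin, hle⟩ := hcard (p ^ k) hpk
  let Jk : AddSubgroup J := (nsmulAddMonoidHom (α := J) (p ^ k)).ker
  have hJk : ∀ x : Jk, p ^ k • (x : J) = 0 := fun x => x.2
  let f : Jk →+ homP P (ZMod (p ^ k)) :=
    { toFun := fun x => ⟨κ k x.1, hκ.par k x.1 (hJk x)⟩
      map_zero' := Subtype.ext (hκ.map_zero k)
      map_add' := fun x y => Subtype.ext (hκ.add k x.1 y.1 (hJk x) (hJk y)) }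
  have hf : Function.Injective f := fun x y hxy =>
    Subtype.ext (hκ.inj k x.1 y.1 (hJk x) (hJk y) (congrArg Subtype.val hxy))
  let I : AddSubgroup (homP P (ZMod (p ^ k))) := f.range
  have hcardI : Nat.card I = Nat.card Jk :=
    (Nat.card_congr (AddMonoidHom.ofInjective hf).toEquiv).symm
  have hJkc : p ^ (r₀ * k) ≤ Nat.card Jk := hcount k
  have hIpos : 0 < Nat.card I := Nat.card_pos
  have hidx : I.index ≤ C := by
    have h1 : Nat.card I * I.index = Nat.card (homP P (ZMod (p ^ k))) := I.card_mul_index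
    have h2 : Nat.card I * I.index ≤ Nat.card I * C := by
      rw [h1]
      calc Nat.card (homP P (ZMod (p ^ k))) ≤ C * (p ^ k) ^ r := hle
        _ ≤ C * p ^ (r₀ * k) := by
            apply Nat.mul_le_mul_left
            rw [← pow_mul]
            apply Nat.pow_le_pow_right hp.pos
            rw [mul_comm]
            exact Nat.mul_le_mul_right k hr
        _ ≤ C * Nat.card I := Nat.mul_le_mul_left _ (hcardI ▸ hJkc)
        _ = Nat.card I * C := mul_comm _ _
    exact Nat.le_of_mul_le_mul_left h2 hIpos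
  have hidx0 : I.index ≠ 0 := AddSubgroup.index_ne_zero_of_finite
  let a' : homP P (ZMod (p ^ k)) := ⟨a, ha⟩
  have h1 : I.index • a' ∈ I := I.nsmul_index_mem a'
  have h2 : p ^ k • a' = 0 := by
    apply Subtype.ext
    refine AddMonoidHom.ext fun g => ?_
    show (p ^ k • a) g = 0
    rw [AddMonoidHom.nsmul_apply, nsmul_eq_mul, ZMod.natCast_self, zero_mul]
  have hd : Nat.gcd I.index (p ^ k) • a' ∈ I := by
    have hbz := Nat.gcd_eq_gcd_ab I.index (p ^ k)
    have e1 : ((Nat.gcd I.index (p ^ k) : ℕ) : ℤ) • a' =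
        Nat.gcdA I.index (p ^ k) • (I.index • a') + Nat.gcdB I.index (p ^ k) • (p ^ k • a') := by
      rw [hbz, add_smul, mul_comm (I.index : ℤ), mul_smul, mul_comm ((p ^ k : ℕ) : ℤ), mul_smul,
        natCast_zsmul, natCast_zsmul]
    have h3 : ((Nat.gcd I.index (p ^ k) : ℕ) : ℤ) • a' ∈ I := by
      rw [e1, h2, smul_zero, add_zero]
      exact I.zsmul_mem h1 _
    rwa [natCast_zsmul] at h3
  obtain ⟨j, -, hdj⟩ := (Nat.dvd_prime_pow hp).mp (Nat.gcd_dvd_right I.index (p ^ k))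
  have hjC : j ≤ C := by
    have h4 : p ^ j ≤ C := by
      rw [← hdj]
      exact (Nat.le_of_dvd (Nat.pos_of_ne_zero hidx0) (Nat.gcd_dvd_left _ _)).trans hidx
    by_contra hlt
    have h5 : p ^ C < p ^ j := Nat.pow_lt_pow_right hp.one_lt (Nat.lt_of_not_le hlt)
    have h6 : C < p ^ C := Nat.lt_pow_self hp.one_lt
    omega
  have hC' : p ^ C • a' ∈ I := by
    have e2 : p ^ C • a' = p ^ (C - j) • (Nat.gcd I.index (p ^ k) • a') := by
      rw [hdj, ← mul_nsmul, ← pow_add, Nat.add_sub_cancel' hjC]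
    rw [e2]
    exact I.nsmul_mem hd _
  obtain ⟨x, hx⟩ := hC'
  refine ⟨x.1, hJk x, ?_⟩
  have := congrArg Subtype.val hx
  exact this

/-- **Existence of `θ`.** -/
theorem exists_theta [Group.FG G] [Fact p.Prime] [Module.Finite ℤ (homP P ℤ)]
    {κ : (k : ℕ) → J → (Additive G →+ ZMod (p ^ k))} (hκ : KummerData P p κ)
    (r₀ : ℕ) (hr₀ : Module.finrank ℤ (homP P ℤ) ≤ r₀)
    (hcount : ∀ k, p ^ (r₀ * k) ≤ Nat.card {x : J // p ^ k • x = 0}) :
    ∃ (m : ℕ) (θ : ℕ → homP P ℤ →+ J), ∀ (k : ℕ) (h : homP P ℤ),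
      p ^ k • θ k h = 0 ∧ κ k (θ k h) = p ^ m • redHom (p ^ k) (h : Additive G →+ ℤ) := by
  obtain ⟨m, hm⟩ := exists_kummer_class hκ r₀ hr₀ hcount
  have key : ∀ (k : ℕ) (h : homP P ℤ), ∃ x : J, p ^ k • x = 0 ∧
      κ k x = p ^ m • redHom (p ^ k) (h : Additive G →+ ℤ) :=
    fun k h => hm k _ (redHom_mem P h.2)
  choose t ht using key
  refine ⟨m, fun k => { toFun := t k, map_zero' := ?_, map_add' := ?_ }, fun k h => ht k h⟩
  · refine hκ.inj k _ _ (ht k 0).1 (smul_zero _) ?_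
    rw [(ht k 0).2, hκ.map_zero, AddSubgroup.coe_zero, redHom_zero, smul_zero]
  · intro h h'
    have hsum : p ^ k • (t k h + t k h') = 0 := by
      rw [smul_add, (ht k h).1, (ht k h').1, add_zero]
    refine hκ.inj k _ _ (ht k (h + h')).1 hsum ?_
    rw [(ht k (h + h')).2, hκ.add k _ _ (ht k h).1 (ht k h').1, (ht k h).2, (ht k h').2,
      AddSubgroup.coe_add, redHom_add, smul_add]

/-! ### consequences of the defining property of `θ` -/

section Consequences

variable {κ : (k : ℕ) → J → (Additive G →+ ZMod (p ^ k))} {m : ℕ} {θ : ℕ → homP P ℤ →+ J}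

theorem theta_zero
    (hθ : ∀ (k : ℕ) (h : homP P ℤ),
      p ^ k • θ k h = 0 ∧ κ k (θ k h) = p ^ m • redHom (p ^ k) (h : Additive G →+ ℤ))
    (h : homP P ℤ) : θ 0 h = 0 := by
  have := (hθ 0 h).1
  rwa [pow_zero, one_smul] at this

theorem theta_compat (hκ : KummerData P p κ)
    (hθ : ∀ (k : ℕ) (h : homP P ℤ),
      p ^ k • θ k h = 0 ∧ κ k (θ k h) = p ^ m • redHom (p ^ k) (h : Additive G →+ ℤ))
    (k : ℕ) (h : homP P ℤ) : p • θ (k + 1) h = θ k h := by
  have h1 := hθ (k + 1) h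
  have h0 := hθ k h
  have htor : p ^ k • (p • θ (k + 1) h) = 0 := by
    rw [← mul_nsmul', ← pow_succ]
    exact h1.1
  refine hκ.inj k _ _ htor h0.1 ?_
  refine AddMonoidHom.ext fun g => ?_
  rw [hκ.compat k _ h1.1 g, h1.2, h0.2, AddMonoidHom.nsmul_apply, AddMonoidHom.nsmul_apply,
    map_nsmul, redHom_apply, redHom_apply, map_intCast]

theorem theta_ker [Fact p.Prime] (hκ : KummerData P p κ)
    (hθ : ∀ (k : ℕ) (h : homP P ℤ),
      p ^ k • θ k h = 0 ∧ κ k (θ k h) = p ^ m • redHom (p ^ k) (h : Additive G →+ ℤ))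
    (k : ℕ) (h : homP P ℤ) (h0 : θ (k + m) h = 0) :
    ∃ y : homP P ℤ, h = (p ^ k : ℤ) • y := by
  have hp : p.Prime := Fact.out
  have hpk : (p : ℤ) ^ k ≠ 0 := pow_ne_zero _ (by exact_mod_cast hp.ne_zero)
  have hpm : (p : ℤ) ^ m ≠ 0 := pow_ne_zero _ (by exact_mod_cast hp.ne_zero)
  have h1 := (hθ (k + m) h).2
  rw [h0, hκ.map_zero] at h1
  have hdvd : ∀ g : Additive G, (p : ℤ) ^ k ∣ (h : Additive G →+ ℤ) g := by
    intro g
    have h2 := DFunLike.congr_fun h1 g
    rw [AddMonoidHom.zero_apply, AddMonoidHom.nsmul_apply, redHom_apply, nsmul_eq_mul] at h2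
    have h3 : (((p ^ m : ℕ) : ℤ) * (h : Additive G →+ ℤ) g : ℤ) ≡ 0 [ZMOD ((p ^ (k + m) : ℕ) : ℤ)] := by
      rw [← ZMod.intCast_eq_intCast_iff]
      have h2' := h2.symm
      push_cast at h2' ⊢
      exact h2'
    have h4 : ((p ^ (k + m) : ℕ) : ℤ) ∣ ((p ^ m : ℕ) : ℤ) * (h : Additive G →+ ℤ) g :=
      Int.modEq_zero_iff_dvd.mp h3
    have h5 : (p : ℤ) ^ k * (p : ℤ) ^ m ∣ (h : Additive G →+ ℤ) g * (p : ℤ) ^ m := by
      have e : ((p ^ (k + m) : ℕ) : ℤ) = (p : ℤ) ^ k * (p : ℤ) ^ m := by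
        push_cast
        rw [pow_add]
      rw [e] at h4
      rw [mul_comm ((h : Additive G →+ ℤ) g)]
      exact_mod_cast h4
    exact Int.dvd_of_mul_dvd_mul_right hpm h5
  let y : Additive G →+ ℤ :=
    { toFun := fun g => (h : Additive G →+ ℤ) g / (p : ℤ) ^ k
      map_zero' := by simp
      map_add' := fun g g' => by
        show (h : Additive G →+ ℤ) (g + g') / (p : ℤ) ^ k = _
        rw [map_add, Int.add_ediv_of_dvd_left (hdvd g)] }
  have hy : y ∈ homP P ℤ := by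
    intro g hg
    show (h : Additive G →+ ℤ) (Additive.ofMul g) / (p : ℤ) ^ k = 0
    rw [h.2 g hg, Int.zero_ediv]
  refine ⟨⟨y, hy⟩, Subtype.ext (AddMonoidHom.ext fun g => ?_)⟩
  show (h : Additive G →+ ℤ) g = ((p : ℤ) ^ k • y) g
  rw [AddMonoidHom.smul_apply, smul_eq_mul]
  exact (Int.mul_ediv_cancel' (hdvd g)).symm

/-- `θ` intertwines any pair of operators that `κ` intertwines. -/
theorem theta_equivariant (hκ : KummerData P p κ)
    (hθ : ∀ (k : ℕ) (h : homP P ℤ),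
      p ^ k • θ k h = 0 ∧ κ k (θ k h) = p ^ m • redHom (p ^ k) (h : Additive G →+ ℤ))
    (tJ : J →+ J) (tH : homP P ℤ →+ homP P ℤ)
    (tk : (k : ℕ) → (Additive G →+ ZMod (p ^ k)) →+ (Additive G →+ ZMod (p ^ k)))
    (hnat : ∀ (k : ℕ) (h : homP P ℤ),
      tk k (redHom (p ^ k) (h : Additive G →+ ℤ)) = redHom (p ^ k) (tH h : Additive G →+ ℤ))
    (hκt : ∀ (k : ℕ) (x : J), p ^ k • x = 0 → κ k (tJ x) = tk k (κ k x))
    (k : ℕ) (h : homP P ℤ) : θ k (tH h) = tJ (θ k h) := by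
  have h1 := hθ k h
  have h2 := hθ k (tH h)
  have htor : p ^ k • tJ (θ k h) = 0 := by
    rw [← map_nsmul, h1.1, map_zero]
  refine hκ.inj k _ _ h2.1 htor ?_
  rw [h2.2, hκt k _ h1.1, h1.2, map_nsmul, hnat]

end Consequences

end Theta

end Fermat.Agent.S30.BK8261
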